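/-
P-CFT, row 937 SD-E3BD (helper37): `TopOntoBdStatement` from `LTopOntoStatement`.

Every class of `H³` of the dual side of a good module is `Θ³` of a boundary class at the
place `v`:  a class `y` is represented by a linear form `ξ` on `C⁰(G, M^*(χ))`; the restriction
`C⁰(G, M^*(χ)) → C⁰(Γ_v, (Res M)^*(χ ∘ loc))` is injective, so `ξ = ψ ∘ res` for a linear form
`ψ` on the local `0`-cochains; by `[L-E2]` there are a local `2`-cocycle `a` and a linear form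
`η'` on the local `1`-cochains with `λ²(a) = ψ + η' ∘ d⁰`; then
`Θ³(0, -a at v) = ξ + (η' ∘ res) ∘ d⁰`.
-/
import Fermat.Agent.H13.Cft.WaistV3
import Fermat.Agent.H26.Cft.LTraceOfTrace
import Fermat.Agent.H7.Cft.LComm
import Fermat.Agent.H95.Cft.LocalOnto

set_option autoImplicit false

universe u

open CategoryTheory

namespace Fermat.Agent.H37.Cft

open Fermat.Agent.H13.Cft Fermat.Agent.H19

noncomputable section

section Comparison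

variable {k : Type u} [CommRing k] (K : CochainComplex (ModuleCat.{u} k) ℕ)

theorem tobDualCx2_d_two : (dualCx2 K).d 2 3 = 0 := by
  unfold dualCx2
  exact CochainComplex.of_d (V := ModuleCat.{u} k) (α := ℕ) _ (dualD2 K) 2

theorem tobDualCx2_d_one (η : Module.Dual k (K.X 1)) :
    ((dualCx2 K).d 1 2).hom η = η ∘ₗ (K.d 0 1).hom := by
  have h : (dualCx2 K).d 1 2 = dualD2 K 1 := by
    unfold dualCx2
    exact CochainComplex.of_d (V := ModuleCat.{u} k) (α := ℕ) _ (dualD2 K) 1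
  rw [h]
  rfl

theorem tobDualCx_d_three : (dualCx K).d 3 4 = 0 := by
  unfold dualCx
  exact CochainComplex.of_d (V := ModuleCat.{u} k) (α := ℕ) _ (dualD K) 3

theorem tobDualCx_d_two (η : Module.Dual k (K.X 1)) :
    ((dualCx K).d 2 3).hom η = η ∘ₗ (K.d 0 1).hom := by
  have h : (dualCx K).d 2 3 = dualD K 2 := by
    unfold dualCx
    exact CochainComplex.of_d (V := ModuleCat.{u} k) (α := ℕ) _ (dualD K) 2
  rw [h]
  rfl

/-- Elements of degree `2` of `dualCx2 K` as linear forms on `K⁰`. -/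
def tobEv : (dualCx2 K).X 2 →ₗ[k] Module.Dual k (K.X 0) := LinearMap.id

/-- If `H²(f)` is surjective for `f : L ⟶ dualCx2 K`, every linear form `ψ` on `K⁰` is,
up to a form `η ∘ d⁰`, of the form `f a` for a `2`-cocycle `a` of `L`. -/
theorem tob_exists_cocycle {L : CochainComplex (ModuleCat.{u} k) ℕ}
    (f : L ⟶ dualCx2 K)
    (hf : Function.Surjective (HomologicalComplex.homologyMap f 2).hom)
    (ψ : Module.Dual k (K.X 0)) :
    ∃ a : L.X 2, (L.d 2 3).hom a = 0 ∧ ∃ η : Module.Dual k (K.X 1),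
      ∀ z : K.X 0, tobEv K ((f.f 2).hom a) z = ψ z + η ((K.d 0 1).hom z) := by
  have hψ : ((dualCx2 K).d 2 3).hom (show (dualCx2 K).X 2 from ψ) = 0 := by
    rw [tobDualCx2_d_two]
    rfl
  obtain ⟨z, hz⟩ := hf (hMk (dualCx2 K) 2 ψ hψ)
  obtain ⟨a, ha, rfl⟩ := hapi_hMk_surjective L 2 z
  rw [hapi_homologyMap_hMk' L 2 (dualCx2 K) f a ha] at hz
  obtain ⟨η₀, hη₀⟩ := (hapi_hMk_succ_eq_iff (dualCx2 K) 1 _ _ _ hψ).1 hz
  obtain ⟨η, rfl⟩ : ∃ η : Module.Dual k (K.X 1), η = η₀ := ⟨η₀, rfl⟩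
  refine ⟨a, ha, η, fun e => ?_⟩
  rw [tobDualCx2_d_one] at hη₀
  have h1 := LinearMap.congr_fun hη₀ e
  rw [LinearMap.comp_apply] at h1
  have h2 : tobEv K ((f.f 2).hom a) e - ψ e = η ((K.d 0 1).hom e) := h1.symm
  rw [← h2]
  ring

end Comparison

section Theta3

variable {k G : Type u} [CommRing k] [Group G] {𝔄 : ArithDatum k G} (T : Trace 𝔄)
  (M : Rep.{u} k G) (v : 𝔄.ι)

/-- `Θ³ (0, b at v) e = t_v (b ∪ res_v e)`. -/
theorem tob_theta3_single (b : lvlCochains (𝔄.lvlv v) (Rep.res (𝔄.loc v) M) 2)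
    (e : lvlCochains 𝔄.lvl (M.dualTwist 𝔄.χ) 0) :
    theta3 M T ((0, Fermat.Agent.H77.frcLocOut 𝔄 M 2
        (Fermat.Agent.H77.frcLocSingle 𝔄 M v 2 b)) : CcProd 𝔄 M 2) e
      = T.localAt v (cupLvl (𝔄.lvlv v) ((evPairing 𝔄.χ M).res (𝔄.loc v)) 2 0 b
          (locRes 𝔄 (M.dualTwist 𝔄.χ) v 0 e)) := by
  classical
  rw [Fermat.Agent.H95.Cft.localAt_apply]
  show T.τ (ccCup 𝔄 M 2 0 _ e) = _
  congr 1
  refine Prod.ext ?_ (funext fun w => ?_)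
  · show cupLvl 𝔄.lvl (evPairing 𝔄.χ M) 3 0 0 e = 0
    rw [map_zero]
    rfl
  · exact Pi.apply_single
      (fun w b => cupLvl (𝔄.lvlv w) ((evPairing 𝔄.χ M).res (𝔄.loc w)) 2 0 b
        (locRes 𝔄 (M.dualTwist 𝔄.χ) w 0 e))
      (fun w => by rw [map_zero]; rfl) v b w

end Theta3

section Restriction

variable {k G : Type u} [CommRing k] [Group G] (𝔄 : ArithDatum k G) (M : Rep.{u} k G) (v : 𝔄.ι)

/-- Restriction to the local group at `v` on the dual side, with values in the cochains of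
`(Res M)^*(χ ∘ loc)`. -/
def tobRes : lvlComplex 𝔄.lvl (M.dualTwist 𝔄.χ) ⟶
    lvlComplex (𝔄.lvlv v) ((Rep.res (𝔄.loc v) M).dualTwist (𝔄.χ.comp (𝔄.loc v))) :=
  lvlRes (𝔄.loc v) (𝔄.compat v) (M.dualTwist 𝔄.χ) ≫
    lvlMap (𝔄.lvlv v) (Fermat.Agent.H95.Cft.twistResHom (𝔄.loc v) 𝔄.χ M)

theorem tobRes_coe (n : ℕ) (e : lvlCochains 𝔄.lvl (M.dualTwist 𝔄.χ) n)
    (g : Fin n → 𝔄.Γ v) :
    (show lvlCochains (𝔄.lvlv v) ((Rep.res (𝔄.loc v) M).dualTwist (𝔄.χ.comp (𝔄.loc v))) n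
      from ((tobRes 𝔄 M v).f n).hom e).1 g = e.1 ((𝔄.loc v) ∘ g) := rfl

theorem tobRes_locRes_coe (n : ℕ) (e : lvlCochains 𝔄.lvl (M.dualTwist 𝔄.χ) n)
    (g : Fin n → 𝔄.Γ v) :
    (locRes 𝔄 (M.dualTwist 𝔄.χ) v n e).1 g = e.1 ((𝔄.loc v) ∘ g) := rfl

theorem tobRes_zero_injective : Function.Injective ((tobRes 𝔄 M v).f 0).hom := by
  intro e e' h
  refine Subtype.ext (funext fun g => ?_)
  have hg : g = (𝔄.loc v) ∘ (fun i : Fin 0 => i.elim0) := Subsingleton.elim _ _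
  have h1 := tobRes_coe 𝔄 M v 0 e (fun i : Fin 0 => i.elim0)
  have h2 := tobRes_coe 𝔄 M v 0 e' (fun i : Fin 0 => i.elim0)
  rw [hg]
  rw [← h1, ← h2]
  exact congrArg (fun z : lvlCochains (𝔄.lvlv v)
    ((Rep.res (𝔄.loc v) M).dualTwist (𝔄.χ.comp (𝔄.loc v))) 0 => z.1 _) h

/-- The two cup products agree on the underlying functions. -/
theorem tob_cup_raw (a : lvlCochains (𝔄.lvlv v) (Rep.res (𝔄.loc v) M) 2)
    (e : lvlCochains 𝔄.lvl (M.dualTwist 𝔄.χ) 0) :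
    (cupLvl (𝔄.lvlv v) (evPairing (𝔄.χ.comp (𝔄.loc v)) (Rep.res (𝔄.loc v) M)) 2 0 a
        (((tobRes 𝔄 M v).f 0).hom e)).1
      = (cupLvl (𝔄.lvlv v) ((evPairing 𝔄.χ M).res (𝔄.loc v)) 2 0 a
        (locRes 𝔄 (M.dualTwist 𝔄.χ) v 0 e)).1 := by
  funext g
  rw [cupLvl_apply, cupLvl_apply]
  exact congrArg (fun f : Module.Dual k M => f (a.1 fun t => g (Fin.castAdd 0 t)))
    (Fermat.Agent.H95.Cft.dualTwist_res_ρ (𝔄.loc v) 𝔄.χ M _ _).symm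

end Restriction

/-- **[E3-BD]** (row 937): `Fermat.Agent.H13.Cft.TopOntoBdStatement` from `[L-E2]`. -/
theorem topOntoBd (hLE2 : LTopOntoStatement) : TopOntoBdStatement := by
  intro p _ G _ 𝔄 T hc v hvan hnz M hM y
  classical
  -- the local trace and the local surjectivity
  have hsurj : Function.Surjective
      (HomologicalComplex.homologyMap (lthetaHom (Fermat.Agent.H26.Cft.lTraceOfTrace T v)
        (Rep.res (𝔄.loc v) M)
        (Fermat.Agent.H7.Cft.lThetaComm _ _ (Fermat.Agent.H26.Cft.lTraceOfTrace T v)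
          (Rep.res (𝔄.loc v) M))) 2).hom := by
    have hepi := hLE2 (𝔄.lvlv v) (𝔄.χ.comp (𝔄.loc v)) (chi_level_loc 𝔄 v)
      (Fermat.Agent.H26.Cft.lTraceOfTrace T v)
      (fun N => Fermat.Agent.H7.Cft.lThetaComm _ _ _ N) hvan
      (Fermat.Agent.H26.Cft.lTraceOfTrace_ne_zero T v hnz) (Rep.res (𝔄.loc v) M)
      (isLGood_res 𝔄 M hM v)
    exact (ModuleCat.epi_iff_surjective _).1 hepi
  -- a representative of `y`
  obtain ⟨ξ₀, hξ₀, rfl⟩ := hapi_hMk_surjective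
    (dualCx (lvlComplex 𝔄.lvl (M.dualTwist 𝔄.χ))) 3 y
  obtain ⟨ξ, rfl⟩ : ∃ ξ : Module.Dual (ZMod p) (lvlCochains 𝔄.lvl (M.dualTwist 𝔄.χ) 0),
      ξ = ξ₀ := ⟨ξ₀, rfl⟩
  -- extend along the (injective) restriction
  obtain ⟨g, hg⟩ := LinearMap.exists_leftInverse_of_injective ((tobRes 𝔄 M v).f 0).hom
    (LinearMap.ker_eq_bot.2 (tobRes_zero_injective 𝔄 M v))
  obtain ⟨a, ha, η', hη'⟩ := tob_exists_cocycle
    (lvlComplex (𝔄.lvlv v) ((Rep.res (𝔄.loc v) M).dualTwist (𝔄.χ.comp (𝔄.loc v))))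
    (lthetaHom (Fermat.Agent.H26.Cft.lTraceOfTrace T v) (Rep.res (𝔄.loc v) M)
      (Fermat.Agent.H7.Cft.lThetaComm _ _ (Fermat.Agent.H26.Cft.lTraceOfTrace T v)
        (Rep.res (𝔄.loc v) M))) hsurj (ξ ∘ₗ g)
  have ha' : lvlD (𝔄.lvlv v) (Rep.res (𝔄.loc v) M) 2 a = 0 :=
    (lvlComplex_d_hom_apply (𝔄.lvlv v) (Rep.res (𝔄.loc v) M) 2 a).symm.trans ha
  have hna : (-a : lvlCochains (𝔄.lvlv v) (Rep.res (𝔄.loc v) M) 2) ∈
      LinearMap.ker (lvlD (𝔄.lvlv v) (Rep.res (𝔄.loc v) M) 2) := by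
    rw [LinearMap.mem_ker, map_neg, ha', neg_zero]
  refine ⟨(Fermat.Agent.H34.coneBdCocycles (resTot 𝔄 M) 2 ∘ₗ locSingleCocycles 𝔄 M v 2)
    ⟨-a, hna⟩, LinearMap.mem_range_self _ _, ?_⟩
  rw [LinearMap.comp_apply, Fermat.Agent.H34.coneBdCocycles_apply]
  refine (hapi_homologyMap_hMk' (ccComplex 𝔄 M) 3 _ (thetaHom M T (hc M)) _ _).trans ?_
  rw [hapi_hMk_succ_eq_iff (dualCx (lvlComplex 𝔄.lvl (M.dualTwist 𝔄.χ))) 2]
  refine ⟨η' ∘ₗ ((tobRes 𝔄 M v).f 1).hom, ?_⟩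
  rw [tobDualCx_d_two]
  refine LinearMap.ext fun e => ?_
  -- the local identity at `res e`
  have h1 := hη' (((tobRes 𝔄 M v).f 0).hom e)
  have h2 : g (((tobRes 𝔄 M v).f 0).hom e) = e := LinearMap.congr_fun hg e
  have h3 : ((lvlComplex (𝔄.lvlv v)
        ((Rep.res (𝔄.loc v) M).dualTwist (𝔄.χ.comp (𝔄.loc v)))).d 0 1).hom
        (((tobRes 𝔄 M v).f 0).hom e)
      = ((tobRes 𝔄 M v).f 1).hom (((lvlComplex 𝔄.lvl (M.dualTwist 𝔄.χ)).d 0 1).hom e) :=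
    (Fermat.Agent.H34.cone_phi_d (tobRes 𝔄 M v) 0 e).symm
  rw [LinearMap.comp_apply, h2, h3] at h1
  have h4 : tobEv _ (((lthetaHom (Fermat.Agent.H26.Cft.lTraceOfTrace T v) (Rep.res (𝔄.loc v) M)
        (Fermat.Agent.H7.Cft.lThetaComm _ _ (Fermat.Agent.H26.Cft.lTraceOfTrace T v)
          (Rep.res (𝔄.loc v) M))).f 2).hom a) (((tobRes 𝔄 M v).f 0).hom e)
      = - (Fermat.Agent.H26.Cft.lTraceOfTrace T v).t
          (cupLvl (𝔄.lvlv v) (evPairing (𝔄.χ.comp (𝔄.loc v)) (Rep.res (𝔄.loc v) M)) 2 0 a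
            (((tobRes 𝔄 M v).f 0).hom e)) := rfl
  have h5 : (Fermat.Agent.H26.Cft.lTraceOfTrace T v).t
        (cupLvl (𝔄.lvlv v) (evPairing (𝔄.χ.comp (𝔄.loc v)) (Rep.res (𝔄.loc v) M)) 2 0 a
          (((tobRes 𝔄 M v).f 0).hom e))
      = T.localAt v (cupLvl (𝔄.lvlv v) ((evPairing 𝔄.χ M).res (𝔄.loc v)) 2 0 a
          (locRes 𝔄 (M.dualTwist 𝔄.χ) v 0 e)) := by
    have h := Fermat.Agent.H26.Cft.lTraceOfTrace_agree T v
      (cupLvl (𝔄.lvlv v) ((evPairing 𝔄.χ M).res (𝔄.loc v)) 2 0 a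
        (locRes 𝔄 (M.dualTwist 𝔄.χ) v 0 e)).1
      (by rw [← tob_cup_raw 𝔄 M v a e]; exact Subtype.mem _)
      (Subtype.mem _)
    rw [← h]
    congr 1
    exact Subtype.ext (tob_cup_raw 𝔄 M v a e)
  -- the global side
  have h6 : Fermat.Agent.H77.frcEv3 (lvlComplex 𝔄.lvl (M.dualTwist 𝔄.χ))
        (((thetaHom M T (hc M)).f 3).hom
          ((0, ((locSingleCocycles 𝔄 M v 2 ⟨-a, hna⟩ :
            LinearMap.ker ((locComplex 𝔄 M).d 2 3).hom) : (locComplex 𝔄 M).X 2)) :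
            (lvlComplex 𝔄.lvl M).X 3 × (locComplex 𝔄 M).X 2)) e
      = theta3 M T ((0, Fermat.Agent.H77.frcLocOut 𝔄 M 2
          (Fermat.Agent.H77.frcLocSingle 𝔄 M v 2 (-a))) : CcProd 𝔄 M 2) e := rfl
  rw [tob_theta3_single, map_neg, LinearMap.neg_apply, map_neg, ← h5] at h6
  rw [h4] at h1
  show η' (((tobRes 𝔄 M v).f 1).hom (((lvlComplex 𝔄.lvl (M.dualTwist 𝔄.χ)).d 0 1).hom e))
    = Fermat.Agent.H77.frcEv3 (lvlComplex 𝔄.lvl (M.dualTwist 𝔄.χ))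
        (((thetaHom M T (hc M)).f 3).hom
          ((0, ((locSingleCocycles 𝔄 M v 2 ⟨-a, hna⟩ :
            LinearMap.ker ((locComplex 𝔄 M).d 2 3).hom) : (locComplex 𝔄 M).X 2)) :
            (lvlComplex 𝔄.lvl M).X 3 × (locComplex 𝔄 M).X 2)) e - ξ e
  rw [h6, h1]
  ring

end

end Fermat.Agent.H37.Cft
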