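/-
P-CFT, row 937 SD-E3BD (helper37): `TopOntoBdStatement`, unconditional
(`topOntoBd` applied to helper73's `lTopOnto`).
-/
import Fermat.Agent.H37.Cft.TopOntoBd
import Fermat.Agent.H73.Cft.LTopOnto

set_option autoImplicit false

namespace Fermat.Agent.H37.Cft

/-- **[E3-BD]** `Fermat.Agent.H13.Cft.TopOntoBdStatement`, unconditional. -/
theorem topOntoBdFinal : Fermat.Agent.H13.Cft.TopOntoBdStatement :=
  topOntoBd Fermat.Agent.H73.LTop.lTopOnto

end Fermat.Agent.H37.Cft
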